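import Mathlib

/-!
# S30 Engine: the coefficient ring `𝒪''`

The integral closure of a complete discrete valuation ring `O'` (characteristic zero, finite
residue field) in a finite extension `K''` of its fraction field is again a complete discrete
valuation ring with finite residue field, finite (and free) over `O'`, with fraction field `K''`.
-/

set_option autoImplicit false
set_option linter.unusedSectionVars false

namespace Fermat.Agent.S30.DVRExt

open IsLocalRing

section General

/-- Membership in `I • ⊤` of a free module is tested on coordinates. -/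
theorem mem_smul_top_iff_repr {R : Type*} [CommRing R] (I : Ideal R)
    {M : Type*} [AddCommGroup M] [Module R M] {ι : Type*} [Fintype ι]
    (b : Module.Basis ι R M) (x : M) :
    x ∈ (I • ⊤ : Submodule R M) ↔ ∀ i, b.repr x i ∈ I := by
  constructor
  · intro hx
    refine Submodule.smul_induction_on hx ?_ ?_
    · intro r hr m _ i
      rw [map_smul, Finsupp.smul_apply, smul_eq_mul]
      exact I.mul_mem_right _ hr
    · intro x y hx hy i
      rw [map_add, Finsupp.add_apply]
      exact I.add_mem (hx i) (hy i)
  · intro h
    rw [← b.sum_repr x]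
    refine Submodule.sum_mem _ fun i _ => ?_
    exact Submodule.smul_mem_smul (h i) Submodule.mem_top

/-- A finite free module over a precomplete ring is precomplete. -/
theorem isPrecomplete_of_basis {R : Type*} [CommRing R] (I : Ideal R) [IsPrecomplete I R]
    {M : Type*} [AddCommGroup M] [Module R M] {ι : Type*} [Fintype ι]
    (b : Module.Basis ι R M) : IsPrecomplete I M := by
  refine ⟨fun f hf => ?_⟩
  have hcoord : ∀ i : ι, ∃ L : R, ∀ n, b.repr (f n) i ≡ L [SMOD (I ^ n • ⊤ : Submodule R R)] := by
    intro i
    refine IsPrecomplete.prec' (I := I) (fun n => b.repr (f n) i) ?_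
    intro m n hmn
    have h := hf hmn
    rw [SModEq.sub_mem] at h ⊢
    have h2 := (mem_smul_top_iff_repr (I ^ m) b _).1 h i
    rw [map_sub, Finsupp.sub_apply] at h2
    rw [smul_eq_mul, Ideal.mul_top]
    exact h2
  choose L hL using hcoord
  refine ⟨∑ i, L i • b i, fun n => ?_⟩
  rw [SModEq.sub_mem, mem_smul_top_iff_repr (I ^ n) b]
  intro i
  have h := hL i n
  rw [SModEq.sub_mem, smul_eq_mul, Ideal.mul_top] at h
  have hrepr : b.repr (∑ j, L j • b j) i = L i := by
    classical
    rw [map_sum, Finsupp.finsetSum_apply]
    simp [Finsupp.single_apply]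
  rw [map_sub, Finsupp.sub_apply, hrepr]
  exact h

/-- Adic completeness only depends on the topology: if `I ≤ J` and a power of `J` is
contained in `I`, then `I`-adic completeness implies `J`-adic completeness. -/
theorem isAdicComplete_of_pow_le {R : Type*} [CommRing R] {I J : Ideal R} (hIJ : I ≤ J)
    {e : ℕ} (he : J ^ e ≤ I) [IsAdicComplete I R] : IsAdicComplete J R := by
  have hE : J ^ (e + 1) ≤ I := (Ideal.pow_le_pow_right (Nat.le_succ e)).trans he
  have hpow : ∀ n : ℕ, J ^ ((e + 1) * n) ≤ I ^ n := by
    intro n
    rw [pow_mul]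
    exact Ideal.pow_right_mono hE n
  have hIJn : ∀ n : ℕ, I ^ n ≤ J ^ n := fun n => Ideal.pow_right_mono hIJ n
  have hle : ∀ n : ℕ, n ≤ (e + 1) * n := fun n => Nat.le_mul_of_pos_left n (Nat.succ_pos e)
  have hHaus : IsHausdorff J R := by
    refine ⟨fun x hx => ?_⟩
    refine IsHausdorff.haus' (I := I) x fun n => ?_
    have h := hx ((e + 1) * n)
    rw [SModEq.zero, smul_eq_mul, Ideal.mul_top] at h ⊢
    exact hpow n h
  have hPre : IsPrecomplete J R := by
    refine ⟨fun f hf => ?_⟩
    obtain ⟨L, hL⟩ := IsPrecomplete.prec' (I := I) (fun n => f ((e + 1) * n)) (by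
      intro m n hmn
      have h := hf (Nat.mul_le_mul_left (e + 1) hmn)
      rw [SModEq.sub_mem, smul_eq_mul, Ideal.mul_top] at h ⊢
      exact hpow m h)
    refine ⟨L, fun n => ?_⟩
    have h1 := hf (hle n)
    have h2 := hL n
    rw [SModEq.sub_mem, smul_eq_mul, Ideal.mul_top] at h1 h2 ⊢
    have : f n - L = (f n - f ((e + 1) * n)) + (f ((e + 1) * n) - L) := by ring
    rw [this]
    exact (J ^ n).add_mem h1 (hIJn n h2)
  exact { toIsHausdorff := hHaus, toIsPrecomplete := hPre }

/-- In a finite monoid every element has an idempotent positive power. -/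
theorem exists_pow_idempotent {Q : Type*} [Monoid Q] [Finite Q] (y : Q) :
    ∃ m : ℕ, 0 < m ∧ y ^ m * y ^ m = y ^ m := by
  obtain ⟨i, j, hij, h⟩ := Finite.exists_ne_map_eq_of_infinite (fun n : ℕ => y ^ n)
  wlog hlt : i < j generalizing i j
  · exact this j i (Ne.symm hij) h.symm (lt_of_le_of_ne (not_lt.mp hlt) (Ne.symm hij))
  obtain ⟨p, hp, rfl⟩ : ∃ p, 0 < p ∧ j = i + p := ⟨j - i, by omega, by omega⟩
  have h' : y ^ (i + p) = y ^ i := h.symm
  have key : ∀ t : ℕ, i ≤ t → ∀ k : ℕ, y ^ (t + k * p) = y ^ t := by
    intro t ht k
    induction k with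
    | zero => simp
    | succ k ih =>
      obtain ⟨s, rfl⟩ := Nat.exists_eq_add_of_le ht
      have : i + s + (k + 1) * p = (i + p) + (s + k * p) := by ring
      rw [this, pow_add, h', ← pow_add]
      have : i + (s + k * p) = i + s + k * p := by ring
      rw [this, ih]
  refine ⟨(i + 1) * p, Nat.mul_pos (Nat.succ_pos i) hp, ?_⟩
  rw [← pow_add]
  exact key ((i + 1) * p) (by nlinarith) (i + 1)

/-- Idempotents lift along a Henselian ideal. -/
theorem exists_idempotent_lift {R : Type*} [CommRing R] (I : Ideal R) [HenselianRing R I]
    (a : R) (ha : a ^ 2 - a ∈ I) : ∃ e : R, e * e = e ∧ e - a ∈ I := by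
  open Polynomial in
  have hmonic : (X ^ 2 - X : R[X]).Monic := by
    nontriviality R
    apply Polynomial.monic_X_pow_sub
    simp
  have hev : (X ^ 2 - X : R[X]).eval a ∈ I := by simpa using ha
  have hder : IsUnit (Ideal.Quotient.mk I ((X ^ 2 - X : R[X]).derivative.eval a)) := by
    have hd : (X ^ 2 - X : R[X]).derivative.eval a = 2 * a - 1 := by
      simp
      ring
    rw [hd]
    refine IsUnit.of_mul_eq_one (Ideal.Quotient.mk I (2 * a - 1)) ?_
    rw [← map_mul, ← map_one (Ideal.Quotient.mk I), Ideal.Quotient.eq]
    have : (2 * a - 1) * (2 * a - 1) - 1 = 4 * (a ^ 2 - a) := by ring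
    rw [this]
    exact I.mul_mem_left _ ha
  obtain ⟨e, he, hea⟩ := HenselianRing.is_henselian (X ^ 2 - X : R[X]) hmonic a hev hder
  refine ⟨e, ?_, hea⟩
  have : e ^ 2 - e = 0 := by simpa [Polynomial.IsRoot] using he
  linear_combination this

/-- A domain that is Henselian along an ideal with finite quotient is a local ring. -/
theorem isLocalRing_of_henselian_of_finite {R : Type*} [CommRing R] [IsDomain R] (I : Ideal R)
    [HenselianRing R I] [Finite (R ⧸ I)] : IsLocalRing R := by
  have hImax : ∀ P : Ideal R, P.IsMaximal → I ≤ P := by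
    intro P hP
    exact (HenselianRing.jac (R := R) (I := I)).trans (sInf_le ⟨bot_le, hP⟩)
  obtain ⟨P₀, hP₀⟩ := Ideal.exists_maximal R
  refine IsLocalRing.of_unique_max_ideal ⟨P₀, hP₀, fun P hP => ?_⟩
  by_contra hne
  have hnle : ¬ P ≤ P₀ := fun hle => hne (hP.eq_of_le hP₀.ne_top hle)
  obtain ⟨x, hxP, hxP₀⟩ := Set.not_subset.mp hnle
  obtain ⟨m, hm, hidem⟩ := exists_pow_idempotent (Ideal.Quotient.mk I x)
  have ha : (x ^ m) ^ 2 - x ^ m ∈ I := by
    rw [← Ideal.Quotient.eq, map_pow, map_pow, pow_two]
    exact hidem
  obtain ⟨e, he, hea⟩ := exists_idempotent_lift I (x ^ m) ha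
  have hxmP : x ^ m ∈ P := Ideal.pow_mem_of_mem P hxP m hm
  have hxmP₀ : x ^ m ∉ P₀ := fun h => hxP₀ (hP₀.isPrime.mem_of_pow_mem m h)
  have he01 : e = 0 ∨ e = 1 := by
    have : e * (e - 1) = 0 := by rw [mul_sub, he, mul_one, sub_self]
    rcases mul_eq_zero.mp this with h | h
    · exact Or.inl h
    · exact Or.inr (sub_eq_zero.mp h)
  rcases he01 with rfl | rfl
  · apply hxmP₀
    have : x ^ m ∈ I := by
      have := I.neg_mem hea
      simpa using this
    exact hImax P₀ hP₀ this
  · apply hP.ne_top
    rw [Ideal.eq_top_iff_one]
    have h1 : (1 : R) - x ^ m ∈ P := hImax P hP hea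
    have : (1 : R) = (1 - x ^ m) + x ^ m := by ring
    rw [this]
    exact P.add_mem h1 hxmP

end General

/-- The ideal of the integral closure generated by the maximal ideal of `O'`. -/
noncomputable abbrev bigIdeal (O' : Type*) [CommRing O'] [IsLocalRing O']
    (K'' : Type*) [Field K''] [Algebra O' K''] : Ideal (integralClosure O' K'') :=
  (maximalIdeal O').map (algebraMap O' (integralClosure O' K''))

section Main

variable (O' : Type*) [CommRing O'] [IsDomain O'] [IsDiscreteValuationRing O']
  [IsAdicComplete (maximalIdeal O') O'] [Finite (ResidueField O')] [CharZero O']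
  (K : Type*) [Field K] [Algebra O' K] [IsFractionRing O' K]
  (K'' : Type*) [Field K''] [Algebra K K''] [Algebra O' K''] [IsScalarTower O' K K'']
  [FiniteDimensional K K'']

include O' K

theorem charZero_top : CharZero K'' := by
  have h1 : CharZero K := charZero_of_injective_algebraMap (IsFractionRing.injective O' K)
  exact charZero_of_injective_algebraMap (algebraMap K K'').injective

theorem algebraMap_injective_top : Function.Injective (algebraMap O' K'') := by
  rw [IsScalarTower.algebraMap_eq O' K K'']
  exact (algebraMap K K'').injective.comp (IsFractionRing.injective O' K)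

theorem isSeparable_top : Algebra.IsSeparable K K'' := by
  have h1 : CharZero K := charZero_of_injective_algebraMap (IsFractionRing.injective O' K)
  infer_instance

theorem finite : Module.Finite O' (integralClosure O' K'') := by
  have := isSeparable_top O' K K''
  exact IsIntegralClosure.finite O' K K'' (integralClosure O' K'')

theorem free : Module.Free O' (integralClosure O' K'') := by
  have := isSeparable_top O' K K''
  have : Module.IsTorsionFree O' K'' := .trans_faithfulSMul O' K K''
  exact IsIntegralClosure.module_free O' K K'' (integralClosure O' K'')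

theorem isDedekindDomain : IsDedekindDomain (integralClosure O' K'') := by
  have := isSeparable_top O' K K''
  exact integralClosure.isDedekindDomain O' K K''

theorem isFractionRing : IsFractionRing (integralClosure O' K'') K'' := by
  have := isSeparable_top O' K K''
  exact IsIntegralClosure.isFractionRing_of_finite_extension O' K K'' (integralClosure O' K'')

theorem algebraMap_injective : Function.Injective (algebraMap O' (integralClosure O' K'')) := by
  intro x y h
  apply algebraMap_injective_top O' K K''
  have := congrArg (algebraMap (integralClosure O' K'') K'') h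
  simpa [← IsScalarTower.algebraMap_apply] using this

theorem isAdicComplete_bigIdeal : IsAdicComplete (bigIdeal O' K'') (integralClosure O' K'') := by
  have hfin := finite O' K K''
  have hfree := free O' K K''
  have hH : IsHausdorff (maximalIdeal O') (integralClosure O' K'') := inferInstance
  have hP : IsPrecomplete (maximalIdeal O') (integralClosure O' K'') :=
    isPrecomplete_of_basis (maximalIdeal O') (Module.Free.chooseBasis O' (integralClosure O' K''))
  exact { toIsHausdorff := IsHausdorff.map_algebraMap_iff.mpr hH
          toIsPrecomplete := IsPrecomplete.map_algebraMap_iff.mpr hP }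

theorem finite_quotient_bigIdeal : Finite (integralClosure O' K'' ⧸ bigIdeal O' K'') := by
  have hfin := finite O' K K''
  have h1 : Finite (O' ⧸ maximalIdeal O') := ‹Finite (ResidueField O')›
  have h2 : Module.Finite (O' ⧸ maximalIdeal O') (integralClosure O' K'' ⧸ bigIdeal O' K'') :=
    Module.Finite.of_restrictScalars_finite O' _ _
  exact Module.finite_of_finite (O' ⧸ maximalIdeal O')

theorem isLocalRing : IsLocalRing (integralClosure O' K'') := by
  have := isAdicComplete_bigIdeal O' K K''
  have := finite_quotient_bigIdeal O' K K''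
  exact isLocalRing_of_henselian_of_finite (bigIdeal O' K'')

theorem bigIdeal_le_maximalIdeal :
    letI := isLocalRing O' K K''
    bigIdeal O' K'' ≤ maximalIdeal (integralClosure O' K'') := by
  have := isLocalRing O' K K''
  have := isAdicComplete_bigIdeal O' K K''
  exact (HenselianRing.jac (R := integralClosure O' K'') (I := bigIdeal O' K'')).trans
    (sInf_le ⟨bot_le, maximalIdeal.isMaximal _⟩)

theorem bigIdeal_ne_bot : bigIdeal O' K'' ≠ ⊥ := by
  intro h
  obtain ⟨ϖ, hϖ⟩ := IsDiscreteValuationRing.exists_irreducible O'
  have hmem : algebraMap O' (integralClosure O' K'') ϖ ∈ bigIdeal O' K'' :=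
    Ideal.mem_map_of_mem _ ((IsDiscreteValuationRing.irreducible_iff_uniformizer ϖ).mp hϖ ▸
      Ideal.mem_span_singleton_self ϖ)
  rw [h, Ideal.mem_bot] at hmem
  have h0 : ϖ = 0 := algebraMap_injective O' K K'' (by rw [hmem, map_zero])
  exact hϖ.ne_zero h0

theorem not_isField : ¬ IsField (integralClosure O' K'') := by
  have := isLocalRing O' K K''
  intro hf
  apply bigIdeal_ne_bot O' K K''
  have hle := bigIdeal_le_maximalIdeal O' K K''
  have : maximalIdeal (integralClosure O' K'') = ⊥ := isField_iff_maximalIdeal_eq.mp hf
  rw [this] at hle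
  exact le_bot_iff.mp hle

theorem isDiscreteValuationRing : IsDiscreteValuationRing (integralClosure O' K'') := by
  have := isLocalRing O' K K''
  have hD := isDedekindDomain O' K K''
  exact ((IsDiscreteValuationRing.TFAE (integralClosure O' K'') (not_isField O' K K'')).out 0 2).mpr hD

theorem isAdicComplete :
    letI := isLocalRing O' K K''
    IsAdicComplete (maximalIdeal (integralClosure O' K'')) (integralClosure O' K'') := by
  have := isLocalRing O' K K''
  have hD := isDedekindDomain O' K K''
  have := isAdicComplete_bigIdeal O' K K''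
  have h06 : IsDiscreteValuationRing (integralClosure O' K'') ↔
      ∀ (I : Ideal (integralClosure O' K'')) (_ : I ≠ ⊥),
        ∃ n : ℕ, I = maximalIdeal (integralClosure O' K'') ^ n :=
    (IsDiscreteValuationRing.TFAE (integralClosure O' K'') (not_isField O' K K'')).out 0 6
  obtain ⟨n, hn⟩ := h06.mp (isDiscreteValuationRing O' K K'') (bigIdeal O' K'')
    (bigIdeal_ne_bot O' K K'')
  exact isAdicComplete_of_pow_le (bigIdeal_le_maximalIdeal O' K K'') (e := n) hn.ge

theorem finite_residueField :
    letI := isLocalRing O' K K''
    Finite (ResidueField (integralClosure O' K'')) := by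
  have := isLocalRing O' K K''
  have := finite_quotient_bigIdeal O' K K''
  exact Finite.of_surjective (Ideal.Quotient.factor (bigIdeal_le_maximalIdeal O' K K''))
    (Ideal.Quotient.factor_surjective (bigIdeal_le_maximalIdeal O' K K''))

theorem isLocalHom :
    IsLocalHom (algebraMap O' (integralClosure O' K'')) := by
  have := isLocalRing O' K K''
  refine ⟨fun a ha => ?_⟩
  by_contra hna
  have hmem : a ∈ maximalIdeal O' := (IsLocalRing.mem_maximalIdeal a).mpr hna
  have h2 : algebraMap O' (integralClosure O' K'') a ∈ maximalIdeal (integralClosure O' K'') :=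
    bigIdeal_le_maximalIdeal O' K K'' (Ideal.mem_map_of_mem _ hmem)
  exact (IsLocalRing.mem_maximalIdeal _).mp h2 ha

theorem charZero : CharZero (integralClosure O' K'') :=
  charZero_of_injective_algebraMap (algebraMap_injective O' K K'')

end Main

/-- **The coefficient ring `𝒪''` of S30/S35.**  For a complete DVR `O'` of characteristic zero
with finite residue field and a finite extension `K''` of its fraction field `K`, there is a
complete DVR `O''` with finite residue field, finite free over `O'` via an injective local
homomorphism, with fraction field `K''`. -/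
theorem exists_dvr_extension
    (O' : Type) [CommRing O'] [IsDomain O'] [IsDiscreteValuationRing O']
    [IsAdicComplete (IsLocalRing.maximalIdeal O') O'] [Finite (IsLocalRing.ResidueField O')]
    [CharZero O']
    (K : Type) [Field K] [Algebra O' K] [IsFractionRing O' K]
    (K'' : Type) [Field K''] [Algebra K K''] [Algebra O' K''] [IsScalarTower O' K K'']
    [FiniteDimensional K K''] :
    ∃ (O'' : Type) (_ : CommRing O'') (_ : IsDomain O'') (_ : IsDiscreteValuationRing O'')
      (_ : IsAdicComplete (IsLocalRing.maximalIdeal O'') O'')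
      (_ : Finite (IsLocalRing.ResidueField O'')) (_ : CharZero O'')
      (_ : Algebra O' O'') (_ : Module.Finite O' O'') (_ : IsLocalHom (algebraMap O' O''))
      (_ : Algebra O'' K'') (_ : IsScalarTower O' O'' K''),
      Function.Injective (algebraMap O' O'') ∧ IsFractionRing O'' K'' ∧ Module.Free O' O'' ∧
        IsIntegralClosure O'' O' K'' :=
  ⟨integralClosure O' K'', inferInstance, inferInstance, isDiscreteValuationRing O' K K'',
    isAdicComplete O' K K'', finite_residueField O' K K'', charZero O' K K'', inferInstance,
    finite O' K K'', isLocalHom O' K K'', inferInstance, inferInstance,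
    algebraMap_injective O' K K'', isFractionRing O' K K'', free O' K K'', inferInstance⟩

end Fermat.Agent.S30.DVRExt
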